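import Fermat.Agent.S37.HI.Generic
import Fermat.Agent.S24.Degree
import Fermat.Prelude.Def_ModularCurve_HeckeOperatorTotal

/-!
# S37, package HI: `HeckeInputsAlong ℚ̄ N ℓ` holds for all levels `N` and all `ℓ`

Without this the Prelude Hecke operator `heckeOperatorAlong ℚ̄ N ℓ` is `0` by definition.
-/

set_option autoImplicit false

open AlgebraicCurve ModularCurve IntermediateField

namespace Fermat.Agent.S37.HI

theorem isFF_modularFunctionFieldBar (N : ℕ) [NeZero N] :
    IsFF (AlgebraicClosure ℚ) ↥(modularFunctionFieldBar N) :=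
  ⟨Fermat.Agent.S24.jBar N, Fermat.Agent.S24.jBar_transcendental N,
    Fermat.Agent.S24.finiteDimensional_jBar N⟩

/-- **Hecke inputs** for every level `N` and every `ℓ`. -/
theorem heckeInputsAlong (N ℓ : ℕ) [NeZero N] [NeZero ℓ] :
    HeckeInputsAlong (AlgebraicClosure ℚ) N ℓ := by
  have hF := isFF_modularFunctionFieldBar N
  have hF' := isFF_modularFunctionFieldBar (N * ℓ)
  have hα : HeckeAlphaBarIntegral (AlgebraicClosure ℚ) N ℓ := isIntegral_of_isFF _ hF hF'
  have hβ : HeckeBetaBarIntegral (AlgebraicClosure ℚ) N ℓ := isIntegral_of_isFF _ hF hF'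
  haveI hP : HasPrincipalDivisors (AlgebraicClosure ℚ)
      (laurentBaseChange (AlgebraicClosure ℚ) (modularFunctionFieldFull (N * ℓ))) :=
    hasPrincipalDivisors hF'
  have hfin : FiniteAlong (AlgebraicClosure ℚ) (heckeAlphaBar (AlgebraicClosure ℚ) N ℓ) :=
    finiteAlong_of_isFF _ hF hF'
  exact ⟨hα, hβ, hP, hfin, fundamentalIdentityAlong_of_isFF _ hβ hF hF',
    normFormulaAlong_of_isFF _ hα hfin hF hF'⟩

end Fermat.Agent.S37.HI
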