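import Fermat.Agent.S37.HI.Local

/-!
# S37, package HI (Hecke inputs): generic function-field lemmas

`IsFF K F` : `F` is a function field of one variable over `K` (finite over `K(x)`, `x` transcendental).
For `K` algebraically closed of characteristic zero and a `K`-embedding `F → F'` of such fields:

* L1 `hasPrincipalDivisors`     : principal divisors have finite support and degree zero;
* L2 `isIntegral_of_isFF`, `finite_of_isFF` : `F'` is finite over `F`;
* L3 `fundamentalIdentity`      : `∑_{w | v} e(w|v) deg w = [F' : F] deg v`;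
* L4 `pushforwardNormFormula`   : `∑_{w | v} f(w|v) ord_w f = ord_v (N f)`.

Everything is stated on the Prelude vocabulary (`Place`, `Divisor`, `HasPrincipalDivisors`,
`FundamentalIdentity`, `Divisor.PushforwardNormFormula`) and built on the landed S24 library
(`Fermat.Agent.S24.A564`).
-/

set_option autoImplicit false

open AlgebraicCurve IntermediateField

namespace Fermat.Agent.S37.HI

variable (K F : Type*) [Field K] [Field F] [Algebra K F]

/-- `F` is a function field of one variable over `K`. -/
def IsFF : Prop := ∃ x : F, Transcendental K x ∧ FiniteDimensional K⟮x⟯ F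

variable {K F}

/-- every place of a function field over an algebraically closed field has degree one -/
theorem deg_eq_one [IsAlgClosed K] [CharZero K] (h : IsFF K F) (v : Place K F) : v.deg = 1 := by
  obtain ⟨x, hx, hfin⟩ := h
  exact Fermat.Agent.S24.A564.deg_eq_one x hx v

/-- L1 -/
theorem hasPrincipalDivisors [IsAlgClosed K] [CharZero K] (h : IsFF K F) :
    HasPrincipalDivisors K F := by
  classical
  obtain ⟨x, hx, hfin⟩ := h
  refine ⟨fun f _ => ?_⟩
  obtain ⟨T, hT, hsum⟩ := Fermat.Agent.S24.A564.exists_finset_sum_ord_eq_zero x hx f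
  have hsupp : ∀ v : Place K F, v.ord f ≠ 0 → v ∈ T := fun v hv => by
    by_contra hvT
    exact hv (hT v hvT)
  refine ⟨Finsupp.onFinset T (fun v => v.ord f) hsupp, fun v => rfl, ?_⟩
  have hdeg : ∀ v : Place K F, v.deg = 1 := fun v => Fermat.Agent.S24.A564.deg_eq_one x hx v
  rw [Divisor.degree, Finsupp.liftAddHom_apply, Finsupp.onFinset_sum hsupp (by intro a; simp)]
  rw [← hsum]
  refine Finset.sum_congr rfl fun v _ => ?_
  simp [hdeg v]

section Relative

variable {F' : Type*} [Field F'] [Algebra K F']

/-- `F'` is finite over `F` (instance form). -/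
theorem finite_of_isFF [CharZero K] [Algebra F F'] [IsScalarTower K F F']
    (hF : IsFF K F) (hF' : IsFF K F') : Module.Finite F F' := by
  obtain ⟨x, hx, -⟩ := hF
  obtain ⟨x', hx', hfin'⟩ := hF'
  have hy : Transcendental K (algebraMap F F' x) := fun h =>
    hx ((isAlgebraic_algHom_iff (IsScalarTower.toAlgHom K F F') (algebraMap F F').injective).mp h)
  have : FiniteDimensional K⟮algebraMap F F' x⟯ F' :=
    Fermat.Agent.S24.A564.finiteDimensional_adjoin_of_transcendental x' (algebraMap F F' x) hx' hy
  obtain ⟨S, hS⟩ := (inferInstance : Module.Finite K⟮algebraMap F F' x⟯ F').fg_top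
  refine ⟨⟨S, ?_⟩⟩
  have key : ∀ z : F', z ∈ Submodule.span K⟮algebraMap F F' x⟯ (S : Set F') →
      z ∈ Submodule.span F (S : Set F') := by
    intro z hz
    induction hz using Submodule.span_induction with
    | mem s hs => exact Submodule.subset_span hs
    | zero => exact zero_mem _
    | add a b _ _ ha hb => exact add_mem ha hb
    | smul c a _ ha =>
      have hc : (c : F') ∈ (K⟮x⟯).map (IsScalarTower.toAlgHom K F F') := by
        rw [IntermediateField.adjoin_map, Set.image_singleton]
        exact c.2
      obtain ⟨d, -, hd⟩ := hc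
      have hcd : c • a = d • a := by
        rw [Algebra.smul_def d a]
        have hd' : algebraMap F F' d = (c : F') := hd
        rw [hd']
        rfl
      rw [hcd]
      exact Submodule.smul_mem _ _ ha
  rw [eq_top_iff]
  intro z _
  exact key z (hS ▸ Submodule.mem_top)

/-- L2a -/
theorem isIntegral_of_isFF [CharZero K] (φ : F →ₐ[K] F') (hF : IsFF K F) (hF' : IsFF K F') :
    φ.toRingHom.IsIntegral := by
  let := algebraAlong φ
  have := isScalarTower_along φ
  have : Module.Finite F F' := finite_of_isFF hF hF'
  intro z
  exact (Algebra.IsIntegral.isIntegral (R := F) z : IsIntegral F z)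

/-- L2b -/
theorem finiteAlong_of_isFF [CharZero K] (φ : F →ₐ[K] F') (hF : IsFF K F) (hF' : IsFF K F') :
    FiniteAlong K φ := by
  let := algebraAlong φ
  have := isScalarTower_along φ
  exact finite_of_isFF hF hF'

variable [Algebra F F'] [IsScalarTower K F F']

/-- L3 -/
theorem fundamentalIdentity [IsAlgClosed K] [CharZero K] [Algebra.IsIntegral F F']
    [HasPrincipalDivisors K F'] (hF : IsFF K F) (hF' : IsFF K F') :
    FundamentalIdentity K F F' := by
  have : Module.Finite F F' := finite_of_isFF hF hF'
  refine ⟨fun v => ?_⟩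
  have hres : Function.Surjective (algebraMap K v.ResidueField) := by
    obtain ⟨x, hx, hfin⟩ := hF
    exact (Fermat.Agent.S24.A564.local_facts x hx v).2
  obtain ⟨π, hπ⟩ := IsDiscreteValuationRing.exists_irreducible v.toValuationSubring
  have hπ1 : v.ord (π : F) = 1 := v.ord_coe_irreducible hπ
  have hπ0 : (π : F) ≠ 0 := by
    intro h
    rw [h] at hπ1
    simp at hπ1
  have hf0 : algebraMap F F' (π : F) ≠ 0 := by simpa using hπ0
  have key := sum_fiber_ord_eq_ord_norm v hres hf0
  rw [Algebra.norm_algebraMap, ← zpow_natCast, v.ord_zpow, hπ1, mul_one] at key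
  rw [deg_eq_one hF v, Nat.cast_one, mul_one, ← key]
  refine Finset.sum_congr rfl fun w hw => ?_
  rw [deg_eq_one hF' w, Nat.cast_one, mul_one, w.ord_restrict, Place.mem_fiber.mp hw, hπ1,
    mul_one]

/-- L4 -/
theorem pushforwardNormFormula [IsAlgClosed K] [CharZero K] [Algebra.IsIntegral F F']
    [Module.Finite F F'] (hF : IsFF K F) (hF' : IsFF K F') :
    Divisor.PushforwardNormFormula K F F' := by
  classical
  have : HasPrincipalDivisors K F' := hasPrincipalDivisors hF'
  intro f hf D hD v
  have hres : Function.Surjective (algebraMap K v.ResidueField) := by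
    obtain ⟨x, hx, hfin⟩ := hF
    exact (Fermat.Agent.S24.A564.local_facts x hx v).2
  have hin : ∀ w : Place K F', w.inertiaDeg F = 1 := by
    intro w
    have h := w.deg_restrict_mul_inertiaDeg (F := F)
    rw [deg_eq_one hF, deg_eq_one hF', one_mul] at h
    exact h
  rw [Divisor.pushforward_apply, ← sum_fiber_ord_eq_ord_norm v hres hf, ← Finset.sum_filter]
  have hsub : D.support.filter (fun w => w.restrict F = v) ⊆ v.fiber F' := fun w hw =>
    Place.mem_fiber.mpr (Finset.mem_filter.mp hw).2
  have h1 : ∑ w ∈ D.support.filter (fun w => w.restrict F = v), D w * (w.inertiaDeg F : ℤ)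
      = ∑ w ∈ D.support.filter (fun w => w.restrict F = v), w.ord f :=
    Finset.sum_congr rfl fun w _ => by rw [hD w, hin w, Nat.cast_one, mul_one]
  rw [h1]
  refine Finset.sum_subset hsub ?_
  intro w hw hnot
  have h0 : D w = 0 := by
    by_contra h
    exact hnot (Finset.mem_filter.mpr ⟨Finsupp.mem_support_iff.mpr h, Place.mem_fiber.mp hw⟩)
  rw [← hD w, h0]

end Relative

section Along

variable {F' : Type*} [Field F'] [Algebra K F']

theorem fundamentalIdentityAlong_of_isFF [IsAlgClosed K] [CharZero K] (φ : F →ₐ[K] F')
    (hφ : φ.toRingHom.IsIntegral) [HasPrincipalDivisors K F'] (hF : IsFF K F) (hF' : IsFF K F') :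
    FundamentalIdentityAlong K φ hφ := by
  let := algebraAlong φ
  have := isScalarTower_along φ
  have := isIntegral_along φ hφ
  exact fundamentalIdentity hF hF'

theorem normFormulaAlong_of_isFF [IsAlgClosed K] [CharZero K] (φ : F →ₐ[K] F')
    (hφ : φ.toRingHom.IsIntegral) (hfin : FiniteAlong K φ) (hF : IsFF K F) (hF' : IsFF K F') :
    NormFormulaAlong K φ hfin := by
  let := algebraAlong φ
  have := isScalarTower_along φ
  have := isIntegral_along φ hφ
  have : Module.Finite F F' := hfin
  exact pushforwardNormFormula hF hF'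

end Along

end Fermat.Agent.S37.HI
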