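import Fermat.Agent.S24.A564.RHAssembly
import Fermat.Prelude.Def_AlgebraicCurve_Correspondence

/-!
# S37, package HI: the local norm computation (Dedekind extension of a DVR)
-/

set_option autoImplicit false

open AlgebraicCurve IsDedekindDomain WithZero

namespace Fermat.Agent.S37.HI

section Abstract

variable {R B : Type*} [CommRing R] [IsDomain R] [IsDiscreteValuationRing R]
  [CommRing B] [IsDedekindDomain B] [Algebra R B] [Module.Finite R B] [Module.IsTorsionFree R B]

theorem liesOver_maximalIdeal (P : HeightOneSpectrum B) :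
    P.asIdeal.LiesOver (IsLocalRing.maximalIdeal R) := by
  have hprime : (P.asIdeal.under R).IsPrime := Ideal.IsPrime.under R P.asIdeal
  have hne : P.asIdeal.under R ≠ ⊥ := by
    intro h
    exact P.ne_bot (Ideal.eq_bot_of_comap_eq_bot h)
  have hmax : (P.asIdeal.under R).IsMaximal := hprime.isMaximal hne
  exact ⟨(IsLocalRing.eq_maximalIdeal hmax).symm⟩

theorem relNorm_core [PerfectField (FractionRing R)] [Finite (HeightOneSpectrum B)]
    (hf : ∀ P : HeightOneSpectrum B, P.asIdeal.inertiaDeg R = 1) (b : B) (hb : b ≠ 0) :
    Ideal.span {Algebra.intNorm R B b} = (IsLocalRing.maximalIdeal R) ^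
      (∑ᶠ P : HeightOneSpectrum B, multiplicity P.asIdeal (Ideal.span {b})) := by
  classical
  have hI : Ideal.span {b} ≠ ⊥ := by
    rw [Ne, Ideal.span_singleton_eq_bot]; exact hb
  have hfact := Ideal.finprod_heightOneSpectrum_pow_multiplicity hI
  have hrel : ∀ P : HeightOneSpectrum B,
      Ideal.relNorm R P.asIdeal = IsLocalRing.maximalIdeal R := by
    intro P
    haveI := liesOver_maximalIdeal (R := R) P
    haveI := P.isMaximal
    rw [Ideal.relNorm_eq_pow_of_isMaximal P.asIdeal (IsLocalRing.maximalIdeal R), hf P, pow_one]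
  haveI := Fintype.ofFinite (HeightOneSpectrum B)
  have h1 : Ideal.relNorm R (Ideal.span {b}) = (IsLocalRing.maximalIdeal R) ^
      (∑ P : HeightOneSpectrum B, multiplicity P.asIdeal (Ideal.span {b})) := by
    conv_lhs => rw [← hfact]
    rw [finprod_eq_prod_of_fintype, map_prod]
    simp only [map_pow, hrel]
    rw [Finset.prod_pow_eq_pow_sum]
  rw [← Ideal.relNorm_singleton, h1, finsum_eq_sum_of_fintype]

end Abstract

section Concrete

variable {K F F' : Type*} [Field K] [Field F] [Field F'] [Algebra K F] [Algebra K F']
  [Algebra F F'] [IsScalarTower K F F'] [Algebra.IsIntegral F F']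
variable (v : Place K F)
variable {B : Type*} [CommRing B] [IsDedekindDomain B] [Algebra B F'] [IsFractionRing B F']
  [Algebra K B] [IsScalarTower K B F']
  [Algebra v.toValuationSubring B] [Algebra v.toValuationSubring F']
  [IsScalarTower v.toValuationSubring B F'] [IsScalarTower v.toValuationSubring F F']

omit [IsDedekindDomain B] [IsFractionRing B F'] [Algebra K B] [IsScalarTower K B F']
  [Algebra.IsIntegral F F'] in
theorem algebraMap_ov_eq (x : v.toValuationSubring) :
    algebraMap B F' (algebraMap v.toValuationSubring B x) = algebraMap F F' (x : F) := by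
  rw [← IsScalarTower.algebraMap_apply v.toValuationSubring B F',
    IsScalarTower.algebraMap_apply v.toValuationSubring F F']
  rfl

theorem restrict_ofHeightOneSpectrum (P : HeightOneSpectrum B) :
    (Place.ofHeightOneSpectrum (K := K) (F := F') P).restrict F = v := by
  apply Place.ext
  symm
  refine ValuationSubring.eq_of_le_of_ne_top _ ?_ (Place.ne_top' _)
  intro x hx
  rw [Place.restrict_toValuationSubring, ValuationSubring.mem_comap,
    Place.ofHeightOneSpectrum_toValuationSubring, Valuation.mem_valuationSubring_iff]
  rw [← algebraMap_ov_eq v (B := B) ⟨x, hx⟩]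
  exact P.valuation_le_one _

theorem exists_heightOneSpectrum_of_restrict [IsIntegralClosure B v.toValuationSubring F']
    (w : Place K F') (hw : w.restrict F = v) :
    ∃ P : HeightOneSpectrum B, Place.ofHeightOneSpectrum (K := K) (F := F') P = w := by
  apply Fermat.Agent.S24.A564.SO.Place_exists_heightOneSpectrum_of_le w
  intro b
  have hb : IsIntegral v.toValuationSubring (algebraMap B F' b) :=
    (IsIntegralClosure.isIntegral v.toValuationSubring F' b).algebraMap
  obtain ⟨p, hp, hpb⟩ := hb
  have hmem : ∀ r : v.toValuationSubring,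
      algebraMap v.toValuationSubring F' r ∈ w.toValuationSubring.toSubring := by
    intro r
    rw [IsScalarTower.algebraMap_apply v.toValuationSubring F F']
    have h1 : (r : F) ∈ (w.restrict F).toValuationSubring := by rw [hw]; exact r.2
    exact h1
  let g : v.toValuationSubring →+* w.toValuationSubring :=
    (algebraMap v.toValuationSubring F').codRestrict w.toValuationSubring.toSubring hmem
  have hg : (algebraMap w.toValuationSubring F').comp g = algebraMap v.toValuationSubring F' := rfl
  have hint : IsIntegral w.toValuationSubring (algebraMap B F' b) := by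
    refine ⟨p.map g, hp.map g, ?_⟩
    rw [Polynomial.eval₂_map, hg]
    exact hpb
  obtain ⟨y, hy⟩ :=
    (IsIntegrallyClosed.isIntegral_iff (R := w.toValuationSubring) (K := F')).mp hint
  rw [← hy]
  exact y.2

theorem ord_ofHeightOneSpectrum_algebraMap (P : HeightOneSpectrum B) {b : B} (hb : b ≠ 0) :
    (Place.ofHeightOneSpectrum (K := K) (F := F') P).ord (algebraMap B F' b)
      = (multiplicity P.asIdeal (Ideal.span {b}) : ℤ) := by
  rw [Fermat.Agent.S24.A564.SO.Place_ofHeightOneSpectrum_ord,
    HeightOneSpectrum.valuation_of_algebraMap, P.intValuation_eq_exp_neg_multiplicity hb, log_exp,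
    neg_neg]

omit [Algebra.IsIntegral F F'] in
theorem ord_coe_of_span_eq_pow {r : v.toValuationSubring} (hr : r ≠ 0) {n : ℕ}
    (h : Ideal.span {r} = IsLocalRing.maximalIdeal v.toValuationSubring ^ n) :
    v.ord (r : F) = n := by
  have h0 : IsLocalRing.maximalIdeal v.toValuationSubring ≠ 0 :=
    IsDiscreteValuationRing.not_a_field _
  have hu : ¬ IsUnit (IsLocalRing.maximalIdeal v.toValuationSubring) := by
    rw [Ideal.isUnit_iff]
    exact Ideal.IsMaximal.ne_top inferInstance
  have hval : v.adicValuation (r : F) = v.heightOneSpectrum.intValuation r :=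
    HeightOneSpectrum.valuation_of_algebraMap _ r
  rw [Place.ord, hval, v.heightOneSpectrum.intValuation_eq_exp_neg_multiplicity hr, log_exp,
    neg_neg, Place.heightOneSpectrum_asIdeal, h, multiplicity_pow_self h0 hu]

theorem sum_fiber_ord_algebraMap [IsAlgClosed K] [CharZero K] [HasPrincipalDivisors K F']
    [FiniteDimensional F F'] [IsIntegralClosure B v.toValuationSubring F']
    [Module.Finite v.toValuationSubring B] [Module.IsTorsionFree v.toValuationSubring B]
    [IsScalarTower K v.toValuationSubring B]
    (hres : Function.Surjective (algebraMap K v.ResidueField)) {b : B} (hb : b ≠ 0) :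
    ∑ w ∈ v.fiber F', w.ord (algebraMap B F' b) = v.ord (Algebra.norm F (algebraMap B F' b)) := by
  classical
  let e : HeightOneSpectrum B → {w : Place K F' // w ∈ v.fiber F'} := fun P =>
    ⟨Place.ofHeightOneSpectrum (K := K) (F := F') P,
      Place.mem_fiber.mpr (restrict_ofHeightOneSpectrum v P)⟩
  have he : Function.Injective e := fun P Q h =>
    Fermat.Agent.S24.A564.SO.Place_ofHeightOneSpectrum_injective (congrArg Subtype.val h)
  haveI : Finite (HeightOneSpectrum B) := Finite.of_injective e he
  haveI : CharZero (FractionRing v.toValuationSubring) :=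
    charZero_of_injective_algebraMap (algebraMap K _).injective
  have hf : ∀ P : HeightOneSpectrum B, P.asIdeal.inertiaDeg v.toValuationSubring = 1 := by
    intro P
    haveI := liesOver_maximalIdeal (R := v.toValuationSubring) P
    haveI := P.isMaximal
    rw [← Ideal.inertiaDeg'_eq_inertiaDeg (IsLocalRing.maximalIdeal v.toValuationSubring)
      P.asIdeal]
    apply Fermat.Agent.S24.A564.SO.inertiaDeg'_eq_one_of_isAlgClosed (K := K)
    intro r
    obtain ⟨c, hc⟩ := hres (IsLocalRing.residue _ r)
    refine ⟨c, ?_⟩
    rw [← IsLocalRing.residue_eq_zero_iff, map_sub, ← hc, sub_eq_zero]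
    rfl
  have hcore := relNorm_core (R := v.toValuationSubring) hf b hb
  have hnorm : ((Algebra.intNorm v.toValuationSubring B b : v.toValuationSubring) : F)
      = Algebra.norm F (algebraMap B F' b) :=
    Algebra.algebraMap_intNorm (A := v.toValuationSubring) (K := F) (L := F') (B := B) b
  have hN0 : Algebra.intNorm v.toValuationSubring B b ≠ 0 := by
    intro h0
    have h1 : Algebra.norm F (algebraMap B F' b) = 0 := by rw [← hnorm, h0]; rfl
    rw [Algebra.norm_eq_zero_iff] at h1
    exact hb ((IsFractionRing.injective B F') (by rw [h1, map_zero]))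
  rw [← hnorm, ord_coe_of_span_eq_pow v hN0 hcore]
  haveI := Fintype.ofFinite (HeightOneSpectrum B)
  rw [finsum_eq_sum_of_fintype, Nat.cast_sum]
  symm
  refine Finset.sum_bij (fun P _ => Place.ofHeightOneSpectrum (K := K) (F := F') P) ?_ ?_ ?_ ?_
  · intro P _
    exact Place.mem_fiber.mpr (restrict_ofHeightOneSpectrum v P)
  · intro P _ Q _ h
    exact Fermat.Agent.S24.A564.SO.Place_ofHeightOneSpectrum_injective h
  · intro w hw
    obtain ⟨P, hP⟩ :=
      exists_heightOneSpectrum_of_restrict v (B := B) w (Place.mem_fiber.mp hw)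
    exact ⟨P, Finset.mem_univ _, hP⟩
  · intro P _
    exact (ord_ofHeightOneSpectrum_algebraMap P hb).symm

end Concrete

section Main

variable {K F F' : Type*} [Field K] [Field F] [Field F'] [Algebra K F] [Algebra K F']
  [Algebra F F'] [IsScalarTower K F F'] [Algebra.IsIntegral F F']

/-- **Local norm formula**: `∑_{w | v} ord_w f = ord_v (N f)`. -/
theorem sum_fiber_ord_eq_ord_norm [IsAlgClosed K] [CharZero K] [HasPrincipalDivisors K F']
    [FiniteDimensional F F'] (v : Place K F)
    (hres : Function.Surjective (algebraMap K v.ResidueField)) {f : F'} (hf : f ≠ 0) :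
    ∑ w ∈ v.fiber F', w.ord f = v.ord (Algebra.norm F f) := by
  classical
  letI : Algebra v.toValuationSubring F' :=
    ((algebraMap F F').comp (algebraMap v.toValuationSubring F)).toAlgebra
  haveI : IsScalarTower v.toValuationSubring F F' := IsScalarTower.of_algebraMap_eq (fun _ => rfl)
  haveI : IsScalarTower K v.toValuationSubring F' := IsScalarTower.of_algebraMap_eq (fun a => by
    show algebraMap K F' a
      = algebraMap F F' ((algebraMap K v.toValuationSubring a : v.toValuationSubring) : F)
    rw [IsScalarTower.algebraMap_apply K F F']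
    rfl)
  haveI : CharZero F := charZero_of_injective_algebraMap (algebraMap K F).injective
  haveI : Module.IsTorsionFree v.toValuationSubring F' :=
    .trans_faithfulSMul v.toValuationSubring F F'
  let B := integralClosure v.toValuationSubring F'
  haveI : IsDedekindDomain B := IsIntegralClosure.isDedekindDomain v.toValuationSubring F F' B
  haveI : IsFractionRing B F' :=
    IsIntegralClosure.isFractionRing_of_finite_extension v.toValuationSubring F F' B
  haveI : Module.Finite v.toValuationSubring B :=
    IsIntegralClosure.finite v.toValuationSubring F F' B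
  obtain ⟨b1, b2, hb2, rfl⟩ := IsFractionRing.div_surjective (A := B) f
  have hb2' : b2 ≠ 0 := nonZeroDivisors.ne_zero hb2
  have hb1' : b1 ≠ 0 := by
    rintro rfl
    simp at hf
  have h1 := sum_fiber_ord_algebraMap v (F' := F') (B := B) hres hb1'
  have h2 := sum_fiber_ord_algebraMap v (F' := F') (B := B) hres hb2'
  have hc1 : algebraMap B F' b1 ≠ 0 := by simpa using hb1'
  have hc2 : algebraMap B F' b2 ≠ 0 := by simpa using hb2'
  have hord : ∀ w : Place K F', w.ord (algebraMap B F' b1 / algebraMap B F' b2)
      = w.ord (algebraMap B F' b1) - w.ord (algebraMap B F' b2) := by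
    intro w
    rw [div_eq_mul_inv, w.ord_mul hc1 (inv_ne_zero hc2), w.ord_inv]
    ring
  have hN : Algebra.norm F (algebraMap B F' b1 / algebraMap B F' b2)
      * Algebra.norm F (algebraMap B F' b2) = Algebra.norm F (algebraMap B F' b1) := by
    rw [← map_mul, div_mul_cancel₀ _ hc2]
  have hN1 : Algebra.norm F (algebraMap B F' b1 / algebraMap B F' b2) ≠ 0 :=
    Algebra.norm_ne_zero_iff.mpr (div_ne_zero hc1 hc2)
  have hN2 : Algebra.norm F (algebraMap B F' b2) ≠ 0 := Algebra.norm_ne_zero_iff.mpr hc2
  rw [Finset.sum_congr rfl (fun w _ => hord w), Finset.sum_sub_distrib, h1, h2, ← hN,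
    v.ord_mul hN1 hN2]
  ring

end Main

end Fermat.Agent.S37.HI
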